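import Mathlib.RingTheory.DedekindDomain.Ideal.Lemmas
import Mathlib.FieldTheory.Normal.Closure
import Fermat.Agent.GaloisBasics.Finite

/-!
# Approximation of elements fixed by a decomposition group

An algebraic number in a valuation ring `A` over `p` which is fixed by the decomposition group of
`A` is congruent to a rational integer modulo every power of `p`.
-/

set_option autoImplicit false

open scoped Pointwise NumberField
open Fermat.Agent.GaloisBasics

namespace Fermat.Agent.LocalCond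

variable {A : ValuationSubring Qbar} {p : ℕ}

/-- The stabiliser of the prime below `A` is the image of the decomposition group. -/
theorem exists_decomposition_restrict_eq (hA : A.LiesOverPrime p) (hp : p.Prime)
    (F : IntermediateField ℚ Qbar) [IsGalois ℚ F] {g : F ≃ₐ[ℚ] F}
    (hg : g • intIdeal F A = intIdeal F A) :
    ∃ σ ∈ A.decompositionSubgroup ℚ, restrictK F σ = g := by
  obtain ⟨σ, rfl⟩ := restrictK_surjective F g
  rw [← intIdeal_smul] at hg
  obtain ⟨τ, hτ, hτA⟩ := exists_smul_eq_of_fixed (B := A) (liesOverPrime_smul hA σ) hp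
    F.fixingSubgroup (InfiniteGalois.fixingSubgroup_isClosed F) (fun b hb => by
      obtain ⟨a, rfl⟩ := (fixed_iff_mem_range_intIncl F b).1 hb
      exact SetLike.ext_iff.1 hg a)
  refine ⟨τ * σ, mem_decompositionSubgroup_iff_eq.2 (by rw [mul_smul, hτA]), ?_⟩
  rw [map_mul]
  rw [← ker_restrictK, MonoidHom.mem_ker] at hτ
  rw [hτ, one_mul]

/-- An integer of a finite Galois field fixed by the stabiliser of `P` is congruent to a rational
integer modulo any power of `P`. -/
theorem exists_int_sub_mem_pow (F : IntermediateField ℚ Qbar) [FiniteDimensional ℚ F]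
    [IsGalois ℚ F] (P : Ideal (𝓞 F)) [P.IsMaximal] (a : 𝓞 F)
    (ha : ∀ g : F ≃ₐ[ℚ] F, g • P = P → g • a = a) (M : ℕ) :
    ∃ m : ℤ, a - (m : 𝓞 F) ∈ P ^ M := by
  classical
  let G := F ≃ₐ[ℚ] F
  let S : Subgroup G := MulAction.stabilizer G P
  have : Fintype G := Fintype.ofFinite G
  let others : Finset G := Finset.univ.filter fun g => g • P ≠ P
  let I : Ideal (𝓞 F) := ∏ g ∈ others, (g • P) ^ M
  have hPI : P ^ M ⊔ I = ⊤ := by
    rw [sup_comm]
    refine Ideal.prod_sup_eq_top fun g hg => ?_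
    refine Ideal.pow_sup_pow_eq_top ?_
    have hmax : (g • P).IsMaximal := by
      rw [Ideal.pointwise_smul_eq_comap]
      exact Ideal.comap_isMaximal_of_surjective _ (MulSemiringAction.toRingEquiv G (𝓞 F)
          g).symm.surjective
    exact hmax.coprime_of_ne inferInstance (Finset.mem_filter.1 hg).2
  obtain ⟨v, hv, u, hu, hvu⟩ := Submodule.mem_sup.1 (hPI.ge (Submodule.mem_top (x := (1 : 𝓞 F))))
  let u' : 𝓞 F := ∏ s : S, (s : G) • u
  have hu'S : ∀ s ∈ S, s • u' = u' := fun s hs => by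
    rw [show s • u' = ∏ t : S, s • (t : G) • u from Finset.smul_prod' ..]
    exact Fintype.prod_equiv (Equiv.mulLeft (⟨s, hs⟩ : S)) _ _ fun t => by
      rw [Equiv.coe_mulLeft, Subgroup.coe_mul, mul_smul]
  have hu'1 : u' - 1 ∈ P ^ M := by
    refine Ideal.Quotient.eq.1 ?_
    rw [map_prod, map_one]
    refine Finset.prod_eq_one fun s _ => ?_
    rw [← map_one (Ideal.Quotient.mk (P ^ M)), Ideal.Quotient.eq]
    have h1 : (s : G) • u - 1 = -((s : G) • v) := by
      nth_rw 1 [← smul_one (s : G) (N := 𝓞 F)]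
      rw [← smul_sub, ← smul_neg]
      congr 1
      linear_combination hvu
    rw [h1]
    refine neg_mem ?_
    have := Ideal.smul_mem_pointwise_smul (s : G) v (P ^ M) hv
    rwa [smul_pow', show (s : G) • P = P from s.2] at this
  have hu'I : u' ∈ I := by
    rw [show u' = ∏ s : S, (s : G) • u from rfl,
      ← Finset.mul_prod_erase _ _ (Finset.mem_univ (1 : S)), Subgroup.coe_one, one_smul]
    exact I.mul_mem_right _ hu
  let w := a * u'
  have hw : ∀ s ∈ S, s • w = w := fun s hs => by rw [smul_mul', ha s hs, hu'S s hs]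
  let φ : G ⧸ S → 𝓞 F := Quotient.lift (fun g : G => g • w) fun x y hxy => by
    have hxy := QuotientGroup.leftRel_apply.1 hxy
    calc x • w = x • (x⁻¹ * y) • w := by rw [hw _ hxy]
      _ = y • w := by rw [← mul_smul, mul_inv_cancel_left]
  have hφ : ∀ g : G, φ (QuotientGroup.mk g) = g • w := fun _ => rfl
  let z := ∑ c : G ⧸ S, φ c
  have hzfix : ∀ h : G, h • z = z := fun h => by
    rw [Finset.smul_sum]
    refine Fintype.sum_equiv (MulAction.toPerm h) _ _ fun c => ?_
    induction c using QuotientGroup.induction_on with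
    | H g =>
      rw [MulAction.toPerm_apply]
      show h • g • w = (h * g) • w
      rw [mul_smul]
  obtain ⟨m, hm⟩ : ∃ m : ℤ, (m : 𝓞 F) = z := by
    obtain ⟨m, hm⟩ := exists_intCast_eq_of_fixed (b := intIncl F z) fun σ => by
      rw [← intIncl_smul, hzfix]
    exact ⟨m, intIncl_injective F (by rw [map_intCast, hm])⟩
  refine ⟨m, ?_⟩
  rw [hm, ← Ideal.Quotient.eq, map_sum, ← Finset.add_sum_erase _ _ (Finset.mem_univ
    (QuotientGroup.mk (1 : G) : G ⧸ S))]
  rw [Finset.sum_eq_zero, add_zero, hφ, one_smul, map_mul,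
    show Ideal.Quotient.mk (P ^ M) u' = 1 from (Ideal.Quotient.eq.2 hu'1).trans (map_one _),
        mul_one]
  intro c hc
  induction c using QuotientGroup.induction_on with
  | H g =>
    rw [hφ, Ideal.Quotient.eq_zero_iff_mem, smul_mul']
    refine Ideal.mul_mem_left _ _ ?_
    have hg : g⁻¹ ∈ others := by
      refine Finset.mem_filter.2 ⟨Finset.mem_univ _, fun h => (Finset.mem_erase.1 hc).1 ?_⟩
      rw [QuotientGroup.eq, mul_one]
      exact h
    have h1 : u' ∈ (g⁻¹ • P) ^ M :=
      Ideal.le_of_dvd (Finset.dvd_prod_of_mem _ hg) hu'I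
    have h2 := Ideal.smul_mem_pointwise_smul g u' _ h1
    rwa [smul_pow', smul_inv_smul] at h2

theorem valuation_le_one_of_isIntegral (A : ValuationSubring Qbar) (b : Zbar) :
    A.valuation (b : Qbar) ≤ 1 :=
  (A.valuation_le_one_iff _).2 (coe_mem A b)

/-- An algebraic integer fixed by the decomposition group is congruent to an integer modulo any
power of `p`. -/
theorem exists_int_valuation_sub_le_of_isIntegral (hA : A.LiesOverPrime p) (hp : p.Prime)
    {x : Qbar} (hx : IsIntegral ℤ x)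
    (hfix : ∀ σ ∈ A.decompositionSubgroup ℚ, σ x = x) (N : ℕ) :
    ∃ m : ℤ, A.valuation (x - (m : Qbar)) ≤ A.valuation (p : Qbar) ^ N := by
  let F := IntermediateField.normalClosure ℚ (IntermediateField.adjoin ℚ {x}) Qbar
  have : FiniteDimensional ℚ (IntermediateField.adjoin ℚ ({x} : Set Qbar)) :=
    IntermediateField.adjoin.finiteDimensional hx.tower_top
  have : Normal ℚ F := normalClosure.normal ℚ _ Qbar
  have : IsGalois ℚ F := ⟨⟩
  have hxF : x ∈ F := IntermediateField.le_normalClosure _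
    (IntermediateField.mem_adjoin_simple_self ℚ x)
  let a : 𝓞 F := ⟨⟨x, hxF⟩, (isIntegral_algHom_iff (F.val.restrictScalars ℤ)
    Subtype.val_injective).1 hx⟩
  set P := intIdeal F A
  have := intIdeal_isMaximal F hA hp
  have hfa : ∀ g : F ≃ₐ[ℚ] F, g • P = P → g • a = a := fun g hg => by
    obtain ⟨σ, hσ, rfl⟩ := exists_decomposition_restrict_eq hA hp F hg
    exact NumberField.RingOfIntegers.ext (Subtype.ext
      ((coe_restrictK_apply F σ ⟨x, hxF⟩).trans (hfix σ hσ)))
  have hp0 : (Ideal.span {(p : 𝓞 F)}) ≠ ⊥ := by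
    simpa using Nat.cast_ne_zero (R := 𝓞 F).2 hp.ne_zero
  obtain ⟨J, hJ, hJe⟩ := Ideal.eq_prime_pow_mul_coprime hp0 P
  set e := Multiset.count P (UniqueFactorizationMonoid.normalizedFactors
    (Ideal.span {(p : 𝓞 F)}))
  obtain ⟨j, hjJ, hjP⟩ : ∃ j ∈ J, j ∉ P := by
    by_contra h
    push Not at h
    exact (intIdeal_isMaximal F hA hp).ne_top (by rwa [sup_eq_left.2 h] at hJ)
  obtain ⟨m, hm⟩ := exists_int_sub_mem_pow F P a hfa (e * N)
  have hmem : (a - (m : 𝓞 F)) * j ^ N ∈ Ideal.span {(p : 𝓞 F) ^ N} := by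
    rw [← Ideal.span_singleton_pow, hJe, mul_pow, ← pow_mul]
    exact Ideal.mul_mem_mul hm (Ideal.pow_mem_pow hjJ N)
  obtain ⟨t, ht⟩ := Ideal.mem_span_singleton'.1 hmem
  refine ⟨m, ?_⟩
  have hj1 : A.valuation ((intIncl F j : Zbar) : Qbar) = 1 :=
    le_antisymm (valuation_le_one_of_isIntegral A _) (not_lt.1 fun hlt =>
      hjP ((mem_intIdeal F).2 (A.mem_nonunits_iff.2 hlt)))
  have h := congrArg (fun z => A.valuation ((intIncl F z : Zbar) : Qbar)) ht
  simp only [map_mul, map_pow, map_sub, map_intCast, map_natCast] at h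
  rw [show A.valuation (algebraMap Zbar Qbar (intIncl F j)) = 1 from hj1, one_pow, mul_one] at h
  have hax : (algebraMap Zbar Qbar (intIncl F a)) = x := rfl
  rw [hax] at h
  rw [← h]
  exact mul_le_of_le_one_left' (valuation_le_one_of_isIntegral A _)

/-- An element of `A` fixed by the decomposition group is congruent to an integer modulo any
power of `p`. -/
theorem exists_int_valuation_sub_le (hA : A.LiesOverPrime p) (hp : p.Prime) {x : Qbar}
    (hxA : x ∈ A) (hfix : ∀ σ ∈ A.decompositionSubgroup ℚ, σ x = x) (N : ℕ) :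
    ∃ m : ℤ, A.valuation (x - (m : Qbar)) ≤ A.valuation (p : Qbar) ^ N := by
  obtain ⟨y, hy0, hyx⟩ := ((IsFractionRing.isAlgebraic_iff ℤ ℚ Qbar).2
    ((AlgebraicClosure.isAlgebraic ℚ).isAlgebraic x)).exists_integral_multiple
  have hp1 : A.valuation (p : Qbar) < 1 := A.mem_nonunits_iff.1 hA
  have hy : (y : Qbar) ≠ 0 := Int.cast_ne_zero.2 hy0
  obtain ⟨k, y', hy', hyk⟩ : ∃ k : ℕ, ∃ y' : ℤ, ¬ (p : ℤ) ∣ y' ∧ y = (p : ℤ) ^ k * y' := by
    obtain ⟨y', h1, h2⟩ := FiniteMultiplicity.exists_eq_pow_mul_and_not_dvd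
      (Int.finiteMultiplicity_iff.2 ⟨by simpa using hp.ne_one, hy0⟩ :
        FiniteMultiplicity (p : ℤ) y)
    exact ⟨_, y', h2, h1⟩
  have hvy' : A.valuation (y' : Qbar) = 1 :=
    le_antisymm ((A.valuation_le_one_iff _).2 (intCast_mem A y'))
      (not_lt.1 fun h => hy' ((intCast_mem_nonunits_iff hA hp y').1
        (A.mem_nonunits_iff.2 h)))
  obtain ⟨m, hm⟩ := exists_int_valuation_sub_le_of_isIntegral hA hp hyx
    (fun σ hσ => by rw [map_zsmul, hfix σ hσ]) (N + k)
  rw [zsmul_eq_mul] at hm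
  -- `m = p ^ k * n` with `n` an integer
  obtain ⟨n, rfl⟩ : (p : ℤ) ^ k ∣ m := by
    have hyv : A.valuation ((y : Qbar) * x) ≤ A.valuation (p : Qbar) ^ k := by
      rw [map_mul, hyk, Int.cast_mul, Int.cast_pow, Int.cast_natCast, map_mul, map_pow, hvy',
        mul_one]
      exact mul_le_of_le_one_right' ((A.valuation_le_one_iff _).2 hxA)
    have hmv : A.valuation (m : Qbar) ≤ A.valuation (p : Qbar) ^ k := by
      have : (m : Qbar) = (y : Qbar) * x - ((y : Qbar) * x - m) := by ring
      rw [this]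
      exact (Valuation.map_sub _ _ _).trans
        (max_le hyv (hm.trans (pow_le_pow_right_of_le_one' hp1.le (Nat.le_add_left k N))))
    clear hm hyv hyk
    induction k generalizing m with
    | zero => simp
    | succ k ih =>
      obtain ⟨m', rfl⟩ := ih m (by
        exact hmv.trans (pow_le_pow_right_of_le_one' hp1.le k.le_succ))
      rw [Int.cast_mul, Int.cast_pow, Int.cast_natCast, map_mul, map_pow, pow_succ] at hmv
      have hpk : (0 : A.ValueGroup) < A.valuation (p : Qbar) ^ k :=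
        pow_pos (zero_lt_iff.2 ((Valuation.ne_zero_iff _).2 (Nat.cast_ne_zero.2 hp.ne_zero))) k
      have hm' := le_of_mul_le_mul_left hmv hpk
      rw [pow_succ]
      exact mul_dvd_mul_left _ ((intCast_mem_nonunits_iff hA hp m').1
        (A.mem_nonunits_iff.2 (hm'.trans_lt hp1)))
  -- invert `y'` modulo `p ^ N`
  have hcop : IsCoprime y' ((p : ℤ) ^ N) :=
    (((Nat.prime_iff_prime_int.1 hp).irreducible.coprime_iff_not_dvd).2 hy').symm.pow_right
  obtain ⟨s, t, hst⟩ := hcop
  refine ⟨s * n, ?_⟩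
  have hyc : (y : Qbar) = (p : Qbar) ^ k * (y' : Qbar) := by rw [hyk]; push_cast; ring
  have hstc : (s : Qbar) * (y' : Qbar) + (t : Qbar) * (p : Qbar) ^ N = 1 := by exact_mod_cast hst
  push_cast at hm
  have hkey : (y : Qbar) * (x - (s * n : ℤ)) =
      ((y : Qbar) * x - (p : Qbar) ^ k * n) +
        ((p : Qbar) ^ (N + k) * ((t : Qbar) * (n : Qbar))) := by
    rw [hyc]
    push_cast
    rw [pow_add]
    linear_combination (-(p : Qbar) ^ k * (n : Qbar)) * hstc
  have hle : A.valuation ((y : Qbar) * (x - (s * n : ℤ))) ≤ A.valuation (p : Qbar) ^ (N + k) := by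
    rw [hkey]
    refine Valuation.map_add_le _ hm ?_
    rw [map_mul, map_pow]
    refine mul_le_of_le_one_right' ((A.valuation_le_one_iff _).2 ?_)
    exact A.mul_mem _ _ (intCast_mem A t) (intCast_mem A n)
  rw [map_mul, hyc, map_mul, map_pow, hvy', mul_one, pow_add, mul_comm (A.valuation (p : Qbar) ^ N)]
    at hle
  exact le_of_mul_le_mul_left hle
    (pow_pos (zero_lt_iff.2 ((Valuation.ne_zero_iff _).2 (Nat.cast_ne_zero.2 hp.ne_zero))) k)

end Fermat.Agent.LocalCond
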